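import Mathlib.LinearAlgebra.Matrix.Adjugate
import Mathlib.LinearAlgebra.Alternating.Basic
import Mathlib.LinearAlgebra.Matrix.ToLin
import Mathlib.Algebra.CharP.Invertible
import Mathlib.Tactic.LinearCombination

/-!
# Minors of the adjugate and values of alternating maps

`J det (adj M)[S, T] = J ^ p det N`, where `J = det M` and `N` is `M` with the columns in `S`
replaced by the unit vectors of `T`. Expanding an alternating map at rows of the adjugate shows that
`J` times its value is a multiple of `J ^ p` (up to `p!`).
-/

set_option autoImplicit false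

noncomputable section

open Finset

namespace FA.Solomon

variable {R : Type*} [CommRing R] [IsDomain R] {n p : ℕ}

/-- Jacobi's theorem on minors of the adjugate. -/
theorem det_adjugate_submatrix (M : Matrix (Fin n) (Fin n) R) (hM : M.det ≠ 0)
    {S : Fin p → Fin n} (hS : Function.Injective S) (T : Fin p → Fin n) :
    ∃ D : R, M.det * (M.adjugate.submatrix S T).det = M.det ^ p * D := by
  classical
  set e : Fin p ⊕ {j // j ∉ Set.range S} ≃ Fin n :=
    ((Equiv.ofInjective S hS).sumCongr (Equiv.refl _)).trans (Equiv.sumCompl (· ∈ Set.range S))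
  have hel : ∀ b, e (Sum.inl b) = S b := fun b => rfl
  have her : ∀ j, e (Sum.inr j) = j.1 := fun j => rfl
  set N : Matrix (Fin n) (Fin n) R := Matrix.of fun i j =>
    Sum.elim (fun b => if i = T b then 1 else 0) (fun l => M i l.1) (e.symm j) with hN
  refine ⟨N.det, ?_⟩
  have hblock : (M.adjugate * N).submatrix e e = Matrix.fromBlocks (M.adjugate.submatrix S T) 0
      (M.adjugate.submatrix (fun j : {j // j ∉ Set.range S} => j.1) T) (M.det • 1) := by
    ext a b
    rcases b with b | b
    · rw [Matrix.submatrix_apply, Matrix.mul_apply]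
      simp only [hN, Matrix.of_apply, Equiv.symm_apply_apply, Sum.elim_inl, mul_ite, mul_one,
        mul_zero, sum_ite_eq', mem_univ, if_true]
      rcases a with a | a <;> simp [hel, her]
    · rw [Matrix.submatrix_apply, Matrix.mul_apply]
      simp only [hN, Matrix.of_apply, Equiv.symm_apply_apply, Sum.elim_inr]
      rw [← Matrix.mul_apply, Matrix.adjugate_mul, Matrix.smul_apply, Matrix.one_apply]
      rcases a with a | a
      · rw [if_neg fun h => b.2 ⟨a, by rw [← hel, h]⟩, smul_zero]
        rfl
      · rw [her, Matrix.fromBlocks_apply₂₂, Matrix.smul_apply, Matrix.one_apply]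
        simp [Subtype.ext_iff]
  have h1 := congrArg Matrix.det hblock
  rw [Matrix.det_submatrix_equiv_self, Matrix.det_mul, Matrix.det_fromBlocks_zero₁₂,
    Matrix.det_smul, Matrix.det_one, mul_one] at h1
  have hcard : p + Fintype.card {j // j ∉ Set.range S} = n := by
    have := Fintype.card_congr e
    rwa [Fintype.card_sum, Fintype.card_fin, Fintype.card_fin] at this
  have h2 : M.adjugate.det * M.det = M.det ^ n := by
    rw [← Matrix.det_mul, Matrix.adjugate_mul, Matrix.det_smul, Matrix.det_one, mul_one,
      Fintype.card_fin]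
  refine mul_left_cancel₀ (pow_ne_zero (Fintype.card {j // j ∉ Set.range S}) hM) ?_
  rw [← mul_assoc _ (M.det ^ p), ← pow_add, Nat.add_comm, hcard, ← h2]
  linear_combination -(M.det) * h1

/-- The value of an alternating form at rows of the adjugate. -/
theorem exists_eval_adjugate {k : Type*} [Field k] [CharZero k] [Algebra k R]
    (M : Matrix (Fin n) (Fin n) R) (hM : M.det ≠ 0)
    (ω : (Fin n → R) [⋀^Fin p]→ₗ[R] R) {S : Fin p → Fin n} (hS : Function.Injective S) :
    ∃ a : R, M.det * ω (fun b => M.adjugate (S b)) = M.det ^ p * a := by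
  classical
  set A := M.adjugate
  set w : (Fin p → Fin n) → R := fun T => ω fun b => Pi.single (T b) 1
  have hX : ω (fun b => A (S b)) = ∑ T, (∏ b, A (S b) (T b)) * w T := by
    have h1 : (fun b => A (S b)) = fun b => ∑ t, A (S b) t • (Pi.single t 1 : Fin n → R) := by
      funext b
      exact pi_eq_sum_univ' (A (S b))
    rw [h1, ← AlternatingMap.coe_multilinearMap, MultilinearMap.map_sum]
    exact sum_congr rfl fun T _ => MultilinearMap.map_smul_univ ω.toMultilinearMap _ _
  have hσ : ∀ σ : Equiv.Perm (Fin p), ω (fun b => A (S b)) =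
      ∑ T, (Equiv.Perm.sign σ • ∏ b, A (S (σ b)) (T b)) * w T := by
    intro σ
    rw [hX, ← Equiv.sum_comp (σ.symm.arrowCongr (Equiv.refl (Fin n))).symm]
    refine sum_congr rfl fun T _ => ?_
    have h1 : w ((σ.symm.arrowCongr (Equiv.refl (Fin n))).symm T) =
        Equiv.Perm.sign σ • w T := by
      have := ω.map_perm (fun b => Pi.single (T b) 1) σ.symm
      rw [Equiv.Perm.sign_symm] at this
      exact this
    have h2 : ∏ b, A (S b) ((σ.symm.arrowCongr (Equiv.refl (Fin n))).symm T b) =
        ∏ b, A (S (σ b)) (T b) := by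
      rw [← Equiv.prod_comp σ]
      exact prod_congr rfl fun b _ => by simp [Equiv.arrowCongr]
    rw [h1, h2]
    rcases Int.units_eq_one_or (Equiv.Perm.sign σ) with e | e <;> simp [e]
  have hdet : ∀ T, (A.submatrix S T).det = ∑ σ : Equiv.Perm (Fin p),
      Equiv.Perm.sign σ • ∏ b, A (S (σ b)) (T b) := fun T => Matrix.det_apply _
  have hsum : (p.factorial : R) * ω (fun b => A (S b)) =
      ∑ T, (A.submatrix S T).det * w T := by
    simp only [hdet, sum_mul]
    rw [sum_comm, ← sum_congr rfl fun σ _ => hσ σ, sum_const, card_univ, Fintype.card_perm,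
      Fintype.card_fin, nsmul_eq_mul]
  choose D hD using fun T => det_adjugate_submatrix M hM hS T
  refine ⟨algebraMap k R (p.factorial : k)⁻¹ * ∑ T, D T * w T, ?_⟩
  have hfac : algebraMap k R (p.factorial : k)⁻¹ * (p.factorial : R) = 1 := by
    rw [← map_natCast (algebraMap k R), ← map_mul,
      inv_mul_cancel₀ (Nat.cast_ne_zero.2 p.factorial_ne_zero), map_one]
  calc M.det * ω (fun b => A (S b))
      = algebraMap k R (p.factorial : k)⁻¹ *
          (M.det * ((p.factorial : R) * ω fun b => A (S b))) := by
        linear_combination -(M.det * ω fun b => A (S b)) * hfac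
    _ = _ := by
        rw [hsum, mul_left_comm (M.det ^ p), mul_sum, mul_sum (a := M.det ^ p)]
        congr 1
        exact sum_congr rfl fun T _ => by rw [← mul_assoc, hD T, mul_assoc]

end FA.Solomon
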