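import Fermat.Agent.Solomon.Mirrors
import Fermat.Agent.Solomon.Minors
import Mathlib.Data.Finset.Sort

/-!
# Solomon's theorem

A polynomial differential `p`-form on `k ^ n` is an alternating map of the polynomial vector fields
`Fin n → k[X]`, linear over the polynomials. For an invariant form `ω` and the fields `w s` (rows of
the adjugate of the Jacobian matrix, so `df_i (w s) = J` for `i = s` and `0` otherwise) one has
`J ω (w_S) = J ^ p a` with `a` anti-invariant, so `ω (w_S) = J ^ p h_S` with `h_S` invariant, and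
`ω = ∑ h_S df_S`.
-/

set_option autoImplicit false

noncomputable section

open MvPolynomial

namespace FA.Solomon

open Fermat.Agent.ReflectionGroups

variable {n : ℕ} {k : Type*} [Field k]

/-- Differential forms of degree `p`. -/
abbrev PForm (n : ℕ) (k : Type*) [Field k] (p : ℕ) :=
  (Fin n → MvPolynomial (Fin n) k) [⋀^Fin p]→ₗ[MvPolynomial (Fin n) k] MvPolynomial (Fin n) k

/-- The image of a vector field. -/
def push (g : GL (Fin n) k) (u : Fin n → MvPolynomial (Fin n) k) :
    Fin n → MvPolynomial (Fin n) k :=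
  Matrix.vecMul (fun i => act (g : Matrix (Fin n) (Fin n) k) (u i))
    (((g⁻¹ : GL (Fin n) k) : Matrix (Fin n) (Fin n) k).map C)

/-- Invariance of a form. -/
def IsInvariantForm (G : Subgroup (GL (Fin n) k)) {p : ℕ} (ω : PForm n k p) : Prop :=
  ∀ g ∈ G, ∀ u : Fin p → Fin n → MvPolynomial (Fin n) k,
    ω (fun a => push g (u a)) = act (g : Matrix (Fin n) (Fin n) k) (ω u)

/-- The wedge product `df_{S 1} ∧ … ∧ df_{S p}`. -/
def wedgeDiff (f : Fin n → MvPolynomial (Fin n) k) {p : ℕ} (S : Fin p → Fin n) : PForm n k p :=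
  Matrix.detRowAlternating.compLinearMap (Matrix.vecMulLinear ((jacMatrix f).submatrix id S))

theorem wedgeDiff_apply (f : Fin n → MvPolynomial (Fin n) k) {p : ℕ} (S : Fin p → Fin n)
    (u : Fin p → Fin n → MvPolynomial (Fin n) k) :
    wedgeDiff f S u = (Matrix.of fun a b => ∑ l, u a l * pderiv l (f (S b))).det :=
  rfl

/-- The fields dual to the differentials, times the Jacobian. -/
def field (f : Fin n → MvPolynomial (Fin n) k) (s : Fin n) : Fin n → MvPolynomial (Fin n) k :=
  (jacMatrix f).adjugate s

theorem vecMul_field (f : Fin n → MvPolynomial (Fin n) k) (s i : Fin n) :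
    ∑ l, field f s l * pderiv l (f i) = if s = i then jac f else 0 := by
  have h := congrFun (congrFun (Matrix.adjugate_mul (jacMatrix f)) s) i
  rw [Matrix.mul_apply, Matrix.smul_apply, Matrix.one_apply, smul_eq_mul, mul_ite, mul_one,
    mul_zero] at h
  exact h

variable (G : Subgroup (GL (Fin n) k)) {f : Fin n → MvPolynomial (Fin n) k}

theorem push_field (hf : ∀ i, f i ∈ invariants G) {g : GL (Fin n) k} (hg : g ∈ G) (s : Fin n) :
    push g (field f s) = (C ((g⁻¹ : GL (Fin n) k) : Matrix (Fin n) (Fin n) k).det :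
      MvPolynomial (Fin n) k) • field f s := by
  have h : (jacMatrix f).adjugate.map (act (g : Matrix (Fin n) (Fin n) k)) *
      ((g⁻¹ : GL (Fin n) k) : Matrix (Fin n) (Fin n) k).map C =
        (C ((g⁻¹ : GL (Fin n) k) : Matrix (Fin n) (Fin n) k).det : MvPolynomial (Fin n) k) •
          (jacMatrix f).adjugate := by
    show (act (g : Matrix (Fin n) (Fin n) k)).toRingHom.mapMatrix (jacMatrix f).adjugate * _ = _
    rw [RingHom.map_adjugate]
    show ((jacMatrix f).map (act (g : Matrix (Fin n) (Fin n) k))).adjugate * _ = _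
    rw [jacMatrix_map_act G hf hg, Matrix.adjugate_mul_distrib, Matrix.mul_assoc,
      Matrix.adjugate_mul, Matrix.mul_smul, Matrix.mul_one, ← RingHom.mapMatrix_apply,
      ← RingHom.map_det]
  exact congrFun h s

theorem isInvariant_wedgeDiff (hf : ∀ i, f i ∈ invariants G) {p : ℕ} (S : Fin p → Fin n) :
    IsInvariantForm G (wedgeDiff f S) := by
  intro g hg u
  have hrow : ∀ v : Fin n → MvPolynomial (Fin n) k, Matrix.vecMul (push g v) (jacMatrix f) =
      fun i => act (g : Matrix (Fin n) (Fin n) k) (Matrix.vecMul v (jacMatrix f) i) := fun v => by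
    rw [push, Matrix.vecMul_vecMul, ← jacMatrix_map_act G hf hg]
    exact funext fun i => ((act (g : Matrix (Fin n) (Fin n) k)).toRingHom.map_vecMul _ v i).symm
  rw [wedgeDiff_apply, wedgeDiff_apply, AlgHom.map_det]
  congr 1
  ext1 a b
  exact congrFun (hrow (u a)) (S b)

/-- A form vanishing at all tuples of dual fields is zero. -/
theorem eq_zero_of_fields (hJ : jac f ≠ 0) {p : ℕ} (ω : PForm n k p)
    (h : ∀ U : Fin p → Fin n, ω (fun b => field f (U b)) = 0) : ω = 0 := by
  refine AlternatingMap.ext fun u => ?_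
  have hu : ∀ b, jac f • u b =
      ∑ s, Matrix.vecMul (u b) (jacMatrix f) s • field f s := fun b => by
    have h1 : Matrix.vecMul (Matrix.vecMul (u b) (jacMatrix f)) (jacMatrix f).adjugate =
        jac f • u b := by
      rw [Matrix.vecMul_vecMul, Matrix.mul_adjugate, Matrix.vecMul_smul, Matrix.vecMul_one]
      rfl
    rw [← h1, Matrix.vecMul_eq_sum]
    rfl
  have h2 : ω (fun b => jac f • u b) = 0 := by
    rw [funext hu, ← AlternatingMap.coe_multilinearMap, MultilinearMap.map_sum]
    refine Finset.sum_eq_zero fun U _ => ?_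
    rw [MultilinearMap.map_smul_univ]
    exact smul_eq_zero_of_right _ (h U)
  rw [← AlternatingMap.coe_multilinearMap, MultilinearMap.map_smul_univ] at h2
  exact (smul_eq_zero.1 h2).resolve_left (Finset.prod_ne_zero_iff.2 fun _ _ => hJ)

/-- The increasing tuple of a set. -/
def tuple {p : ℕ} (S : {S : Finset (Fin n) // S.card = p}) : Fin p → Fin n :=
  S.1.orderEmbOfFin S.2

theorem wedgeDiff_field {p : ℕ} (S U : {S : Finset (Fin n) // S.card = p}) :
    wedgeDiff f (tuple S) (fun b => field f (tuple U b)) = if S = U then jac f ^ p else 0 := by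
  rw [wedgeDiff_apply]
  simp only [vecMul_field]
  split_ifs with hSU
  · subst hSU
    rw [show (Matrix.of fun a b : Fin p => if tuple S a = tuple S b then jac f else 0) =
      Matrix.diagonal fun _ => jac f by
        ext1 a b
        simp [Matrix.diagonal_apply, (S.1.orderEmbOfFin S.2).injective.eq_iff, tuple],
      Matrix.det_diagonal, Finset.prod_const, Finset.card_univ, Fintype.card_fin]
  · obtain ⟨x, hxU, hxS⟩ := Finset.not_subset.1 fun hsub : U.1 ⊆ S.1 =>
      hSU (Subtype.ext (Finset.eq_of_subset_of_card_le hsub (by rw [S.2, U.2])).symm)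
    obtain ⟨a, ha⟩ : x ∈ Set.range (tuple U) := by
      rw [tuple, Finset.range_orderEmbOfFin]
      exact hxU
    refine Matrix.det_eq_zero_of_row_eq_zero a fun b => if_neg fun he => hxS ?_
    rw [← ha, he]
    exact Finset.orderEmbOfFin_mem _ _ b

theorem sum_apply {p : ℕ} (h : {S : Finset (Fin n) // S.card = p} → MvPolynomial (Fin n) k)
    (u : Fin p → Fin n → MvPolynomial (Fin n) k) :
    (∑ S, h S • wedgeDiff f (tuple S)) u = ∑ S, h S * wedgeDiff f (tuple S) u := by
  exact map_sum (AddMonoidHom.mk' (fun η : PForm n k p => η u) fun _ _ => rfl) _ _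

variable [Finite G] [CharZero k] {d : Fin n → ℕ}

/-- The value at dual fields. -/
theorem exists_coefficient (hd : ∀ i, 0 < d i ∧ (f i).IsHomogeneous (d i))
    (hgen : invariants G = Algebra.adjoin k (Set.range f)) {p : ℕ} {ω : PForm n k p}
    (hω : IsInvariantForm G ω) {S : Fin p → Fin n} (hS : Function.Injective S) :
    ∃ h ∈ invariants G, ω (fun b => field f (S b)) = jac f ^ p * h := by
  have hf : ∀ i, f i ∈ invariants G := fun i => hgen ▸ Algebra.subset_adjoin ⟨i, rfl⟩
  have hJ := jac_ne_zero G hgen
  obtain ⟨a, ha⟩ := exists_eval_adjugate (k := k) (jacMatrix f) hJ ω hS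
  have ha' : jac f * ω (fun b => field f (S b)) = jac f ^ p * a := ha
  have hanti : ∀ g ∈ G, act (g : Matrix (Fin n) (Fin n) k) a =
      C ((g⁻¹ : GL (Fin n) k) : Matrix (Fin n) (Fin n) k).det * a := by
    intro g hg
    set δ := ((g⁻¹ : GL (Fin n) k) : Matrix (Fin n) (Fin n) k).det
    have h1 := congrArg (act (g : Matrix (Fin n) (Fin n) k)) ha'
    rw [map_mul, map_mul, map_pow, act_jac G hf hg, ← hω g hg,
      funext fun b => push_field G hf hg (S b),
      show ω (fun b => (C δ : MvPolynomial (Fin n) k) • field f (S b)) =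
          C δ ^ p * ω (fun b => field f (S b)) by
        rw [← AlternatingMap.coe_multilinearMap, MultilinearMap.map_smul_univ, Finset.prod_const,
          Finset.card_univ, Fintype.card_fin]
        rfl] at h1
    have hδ : (C δ : MvPolynomial (Fin n) k) ≠ 0 :=
      C_eq_zero.not.2 ((Matrix.isUnit_iff_isUnit_det _).1 (g⁻¹).isUnit).ne_zero
    refine mul_left_cancel₀ (pow_ne_zero p (mul_ne_zero hδ hJ)) ?_
    linear_combination -h1 + C δ * C δ ^ p * ha'
  obtain ⟨h, hh, hah⟩ := (anti_invariant_iff G hd hgen a).1 hanti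
  exact ⟨h, hh, mul_left_cancel₀ hJ (by rw [ha', hah, mul_left_comm])⟩

/-- **Solomon's theorem.** -/
theorem solomon_forms (hd : ∀ i, 0 < d i ∧ (f i).IsHomogeneous (d i))
    (hgen : invariants G = Algebra.adjoin k (Set.range f)) {p : ℕ} (ω : PForm n k p)
    (hω : IsInvariantForm G ω) :
    ∃! h : {S : Finset (Fin n) // S.card = p} → MvPolynomial (Fin n) k,
      (∀ S, h S ∈ invariants G) ∧ ω = ∑ S, h S • wedgeDiff f (tuple S) := by
  classical
  have hJ := jac_ne_zero G hgen
  have hval : ∀ (h : {S : Finset (Fin n) // S.card = p} → MvPolynomial (Fin n) k) U,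
      (∑ S, h S • wedgeDiff f (tuple S)) (fun b => field f (tuple U b)) = jac f ^ p * h U := by
    intro h U
    rw [sum_apply, Finset.sum_eq_single U (fun S _ hSU => by
      rw [wedgeDiff_field, if_neg hSU, mul_zero]) (by simp), wedgeDiff_field, if_pos rfl, mul_comm]
  choose h hh hev using fun S : {S : Finset (Fin n) // S.card = p} =>
    exists_coefficient G hd hgen hω (S.1.orderEmbOfFin S.2).injective
  refine ⟨h, ⟨hh, sub_eq_zero.1 (eq_zero_of_fields hJ _ fun U => ?_)⟩, fun h' ⟨_, he⟩ =>
    funext fun U => mul_left_cancel₀ (pow_ne_zero p hJ) ?_⟩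
  · by_cases hU : Function.Injective U
    · have hcard : (Finset.univ.image U).card = p := by
        rw [Finset.card_image_of_injective _ hU, Finset.card_univ, Fintype.card_fin]
      set S : {S : Finset (Fin n) // S.card = p} := ⟨_, hcard⟩
      set σ : Equiv.Perm (Fin p) := Equiv.ofBijective
        (fun b => (S.1.orderIsoOfFin S.2).symm
          ⟨U b, Finset.mem_image_of_mem _ (Finset.mem_univ b)⟩)
        (Finite.injective_iff_bijective.1 fun b c hbc => hU (congrArg Subtype.val
          ((S.1.orderIsoOfFin S.2).symm.injective hbc)))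
      have hUσ : (fun b => field f (U b)) = (fun b => field f (tuple S b)) ∘ σ := by
        funext b
        show field f (U b) = field f (S.1.orderIsoOfFin S.2 (σ b) : Fin n)
        simp [σ]
      rw [hUσ, AlternatingMap.map_perm, AlternatingMap.sub_apply, hval, sub_eq_zero.2, smul_zero]
      exact hev S
    · obtain ⟨a, b, hab, hne⟩ := Function.not_injective_iff.1 hU
      exact AlternatingMap.map_eq_zero_of_eq _ _ (by rw [hab]) hne
  · rw [← hval h' U, ← he]
    exact hev U

end FA.Solomon
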