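import Fermat.Agent.SteinbergFixed.Converse
import Mathlib.LinearAlgebra.Matrix.Adjugate

/-!
# The Jacobian of a system of invariants

If `f₁, …, f_n` are invariants then `M = (∂_l f_i)` satisfies `M = g · g(M)`, so its determinant `J`
is multiplied by `det g⁻¹`. If they generate the invariants then `J ≠ 0`: differentiating the
minimal equations of the coordinates gives a matrix `Q` with `M Q` diagonal and nonsingular.
-/

set_option autoImplicit false

noncomputable section

open MvPolynomial

namespace FA.Solomon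

open Fermat.Agent.ReflectionGroups

variable {n : ℕ} {k : Type*} [Field k]

/-- The Jacobian matrix. -/
def jacMatrix (f : Fin n → MvPolynomial (Fin n) k) :
    Matrix (Fin n) (Fin n) (MvPolynomial (Fin n) k) :=
  Matrix.of fun l i => pderiv l (f i)

/-- The Jacobian determinant. -/
def jac (f : Fin n → MvPolynomial (Fin n) k) : MvPolynomial (Fin n) k :=
  (jacMatrix f).det

theorem pderiv_act (g : Matrix (Fin n) (Fin n) k) (p : MvPolynomial (Fin n) k) (l : Fin n) :
    pderiv l (act g p) = ∑ j, C (g l j) * act g (pderiv j p) := by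
  rw [act, pderiv_aeval]
  refine Finset.sum_congr rfl fun j _ => ?_
  rw [mul_comm, map_sum,
    Finset.sum_eq_single l (fun i _ hi => by simp [pderiv_X_of_ne hi]) (by simp)]
  simp

variable (G : Subgroup (GL (Fin n) k)) {f : Fin n → MvPolynomial (Fin n) k}

theorem jacMatrix_map_act (hf : ∀ i, f i ∈ invariants G) {g : GL (Fin n) k} (hg : g ∈ G) :
    (jacMatrix f).map (act (g : Matrix (Fin n) (Fin n) k)) =
      ((g⁻¹ : GL (Fin n) k) : Matrix (Fin n) (Fin n) k).map C * jacMatrix f := by
  have h : jacMatrix f = (g : Matrix (Fin n) (Fin n) k).map C *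
      (jacMatrix f).map (act (g : Matrix (Fin n) (Fin n) k)) := by
    ext1 l i
    rw [Matrix.mul_apply]
    conv_lhs => rw [jacMatrix, Matrix.of_apply, ← hf i g hg, pderiv_act]
    rfl
  conv_rhs => rw [h]
  rw [← Matrix.mul_assoc, ← Matrix.map_mul, Units.inv_mul, Matrix.map_one _ C_0 C_1,
    Matrix.one_mul]

theorem act_jac (hf : ∀ i, f i ∈ invariants G) {g : GL (Fin n) k} (hg : g ∈ G) :
    act (g : Matrix (Fin n) (Fin n) k) (jac f) =
      C ((g⁻¹ : GL (Fin n) k) : Matrix (Fin n) (Fin n) k).det * jac f := by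
  rw [jac, AlgHom.map_det]
  show ((jacMatrix f).map (act (g : Matrix (Fin n) (Fin n) k))).det = _
  rw [jacMatrix_map_act G hf hg, Matrix.det_mul, ← RingHom.mapMatrix_apply, ← RingHom.map_det]

theorem isHomogeneous_jac {d : Fin n → ℕ} (hd : ∀ i, (f i).IsHomogeneous (d i)) :
    (jac f).IsHomogeneous (∑ i, (d i - 1)) := by
  rw [jac, Matrix.det_apply]
  refine IsHomogeneous.sum _ _ _ fun σ _ => ?_
  have h : (∏ i, jacMatrix f (σ i) i).IsHomogeneous (∑ i, (d i - 1)) :=
    IsHomogeneous.prod _ _ _ fun i _ => (hd i).pderiv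
  rcases Int.units_eq_one_or (Equiv.Perm.sign σ) with e | e <;> rw [e]
  · rwa [one_smul]
  · rw [Units.neg_smul, one_smul]
    exact h.neg

variable [Finite G] [CharZero k]

/-- The minimal equation of a polynomial over the invariants has nonzero derivative there. -/
theorem exists_equation (hgen : invariants G = Algebra.adjoin k (Set.range f))
    (x : MvPolynomial (Fin n) k) :
    ∃ e : MvPolynomial (Fin n) k, e ≠ 0 ∧ ∃ q : Fin n → MvPolynomial (Fin n) k,
      ∀ l, e * pderiv l x + ∑ j, q j * jacMatrix f l j = 0 := by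
  classical
  set A := Algebra.adjoin k (Set.range f)
  have : Algebra.IsAlgebraic A (MvPolynomial (Fin n) k) :=
    FA.SteinbergFixed.isAlgebraic_adjoin G hgen
  have hex : ∃ N, ∃ Φ : Polynomial A, Φ ≠ 0 ∧ Polynomial.aeval x Φ = 0 ∧ Φ.natDegree = N := by
    obtain ⟨Φ, h1, h2⟩ := Algebra.IsAlgebraic.isAlgebraic (R := A) x
    exact ⟨_, Φ, h1, h2, rfl⟩
  obtain ⟨Φ, hΦ, hΦx, hdeg⟩ := Nat.find_spec hex
  have hpos : Φ.natDegree ≠ 0 := fun h0 => hΦ <| by
    rw [Polynomial.eq_C_of_natDegree_eq_zero h0, Polynomial.aeval_C] at hΦx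
    rw [Polynomial.eq_C_of_natDegree_eq_zero h0, Polynomial.C_eq_zero]
    exact Subtype.ext hΦx
  refine ⟨Polynomial.aeval x (Polynomial.derivative Φ), fun h => ?_, ?_⟩
  · refine Nat.find_min hex (hdeg ▸ Polynomial.natDegree_derivative_lt hpos)
      ⟨_, fun h0 => hpos (Polynomial.derivative_eq_zero.1 h0), h, rfl⟩
  have key : ∀ Ψ : Polynomial A, ∃ q : Fin n → MvPolynomial (Fin n) k, ∀ l,
      pderiv l (Polynomial.aeval x Ψ) =
        Polynomial.aeval x (Polynomial.derivative Ψ) * pderiv l x +
          ∑ j, q j * jacMatrix f l j := by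
    intro Ψ
    induction Ψ using Polynomial.induction_on' with
    | add p r hp hr =>
      obtain ⟨a, ha⟩ := hp
      obtain ⟨b, hb⟩ := hr
      refine ⟨a + b, fun l => ?_⟩
      simp only [map_add, ha, hb, Pi.add_apply, add_mul, Finset.sum_add_distrib]
      ring
    | monomial e a =>
      obtain ⟨P, hP⟩ : ∃ P : MvPolynomial (Fin n) k, aeval f P = (a : MvPolynomial (Fin n) k) :=
        (AlgHom.mem_range (aeval f)).1 ((Algebra.adjoin_range_eq_range_aeval k f).le a.2)
      refine ⟨fun j => aeval f (pderiv j P) * x ^ e, fun l => ?_⟩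
      rw [Polynomial.aeval_monomial, Polynomial.derivative_monomial, Polynomial.aeval_monomial,
        map_mul (algebraMap A (MvPolynomial (Fin n) k)),
        map_natCast (algebraMap A (MvPolynomial (Fin n) k)),
        show algebraMap A (MvPolynomial (Fin n) k) a = aeval f P from hP.symm,
        Derivation.leibniz, Derivation.leibniz_pow, smul_eq_mul, smul_eq_mul, pderiv_aeval,
        nsmul_eq_mul, smul_eq_mul, Finset.mul_sum]
      congr 1
      · ring
      · refine Finset.sum_congr rfl fun j _ => ?_
        rw [jacMatrix, Matrix.of_apply]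
        ring
  obtain ⟨q, hq⟩ := key Φ
  exact ⟨q, fun l => by rw [← hq l, hΦx, map_zero]⟩

/-- **The Jacobian of generators is not zero.** -/
theorem jac_ne_zero (hgen : invariants G = Algebra.adjoin k (Set.range f)) : jac f ≠ 0 := by
  classical
  choose e he q hq using fun i : Fin n => exists_equation G hgen (X i)
  have h : jacMatrix f * (Matrix.of fun j i => q i j) = Matrix.diagonal fun i => -e i := by
    ext1 l i
    have h1 := hq i l
    rw [pderiv_X] at h1
    rw [Matrix.mul_apply, Matrix.diagonal_apply]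
    rw [Finset.sum_congr rfl fun j _ => mul_comm (jacMatrix f l j) _]
    simp only [Matrix.of_apply]
    rcases eq_or_ne l i with rfl | hli
    · rw [if_pos rfl]
      rw [Pi.single_eq_same, mul_one] at h1
      linear_combination h1
    · rw [if_neg hli]
      simpa [Pi.single_eq_of_ne hli, Pi.single_eq_of_ne hli.symm] using h1
  intro h0
  have := congrArg Matrix.det h
  rw [Matrix.det_mul, show (jacMatrix f).det = 0 from h0, zero_mul, Matrix.det_diagonal] at this
  exact Finset.prod_ne_zero_iff.2 (fun i _ => neg_ne_zero.2 (he i)) this.symm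

end FA.Solomon
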