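import Fermat.Agent.Solomon.Jacobian
import Mathlib.RingTheory.MvPolynomial.IrreducibleQuadratic
import Mathlib.RingTheory.Polynomial.UniqueFactorization
import Mathlib.RingTheory.Coprime.Lemmas
import Mathlib.LinearAlgebra.Matrix.SchurComplement

/-!
# Anti-invariants and the mirrors

The determinant is injective on the pseudo-reflections with image line `k a` (and `1`), as a finite
group in characteristic zero has no transvections. If `p` is multiplied by `det g⁻¹` and `L ^ m` is
the exact power of `L = ∑ aᵢ Xᵢ` dividing it, these determinants are roots of `t ^ (m + 1) = 1`, so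
`m` is at least the number of reflections on the line. Hence the product of all mirror forms divides
every anti-invariant, and by degrees it is the Jacobian up to a constant.
-/

set_option autoImplicit false

noncomputable section

open MvPolynomial

namespace FA.Solomon

open Fermat.Agent.ReflectionGroups

variable {n : ℕ} {k : Type*} [Field k]

/-- The linear form of a vector. -/
def form (a : Fin n → k) : MvPolynomial (Fin n) k :=
  ∑ i, C (a i) * X i

theorem isHomogeneous_form (a : Fin n → k) : (form a).IsHomogeneous 1 :=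
  IsHomogeneous.sum _ _ _ fun i _ => isHomogeneous_C_mul_X _ i

theorem coeff_form (a : Fin n → k) (i : Fin n) : coeff (Finsupp.single i 1) (form a) = a i := by
  rw [form, coeff_sum, Finset.sum_eq_single i (fun j _ hj => by
    simp [coeff_C_mul, coeff_X, Finsupp.single_left_inj, hj])
    (by simp)]
  simp [coeff_C_mul, coeff_X]

theorem form_ne_zero {a : Fin n → k} (ha : a ≠ 0) : form a ≠ 0 := fun h =>
  ha (funext fun i => by rw [← coeff_form a i, h]; simp)

theorem irreducible_form {a : Fin n → k} (ha : a ≠ 0) : Irreducible (form a) := by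
  refine irreducible_of_totalDegree_eq_one
    ((isHomogeneous_form a).totalDegree (form_ne_zero ha)) fun x hx => ?_
  obtain ⟨i, hi⟩ := Function.ne_iff.1 ha
  refine isUnit_iff_ne_zero.2 fun h0 => hi ?_
  have := hx (Finsupp.single i 1)
  rw [h0, zero_dvd_iff, coeff_form] at this
  exact this

theorem exists_smul_of_dvd {a b : Fin n → k} (ha : a ≠ 0) (hb : b ≠ 0) (h : form a ∣ form b) :
    ∃ c : k, b = c • a := by
  obtain ⟨u, hu⟩ := (irreducible_form ha).associated_of_dvd (irreducible_form hb) h
  obtain ⟨c, -, hc⟩ := (isUnit_iff_eq_C_of_isReduced (P := (u : MvPolynomial (Fin n) k))).1 u.isUnit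
  refine ⟨c, funext fun i => ?_⟩
  rw [← coeff_form b i, ← hu, hc, mul_comm, coeff_C_mul, coeff_form]
  rfl

theorem dvd_sub_act {g : Matrix (Fin n) (Fin n) k} {L : MvPolynomial (Fin n) k}
    (hX : ∀ j, L ∣ X j - act g (X j)) (p : MvPolynomial (Fin n) k) : L ∣ p - act g p := by
  induction p using MvPolynomial.induction_on with
  | C r => simp
  | add p q hp hq => rw [map_add, add_sub_add_comm]; exact dvd_add hp hq
  | mul_X p j hp =>
    rw [map_mul, show p * X j - act g p * act g (X j) =
      (p - act g p) * X j + act g p * (X j - act g (X j)) by ring]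
    exact dvd_add (hp.mul_right _) ((hX j).mul_left _)

theorem act_transvection (a c : Fin n → k) (j : Fin n) :
    act (1 + Matrix.vecMulVec a c) (X j) = X j + C (c j) * form a := by
  rw [act_X]
  simp only [Matrix.add_apply, Matrix.vecMulVec_apply, map_add, map_mul, add_mul,
    Finset.sum_add_distrib, form, Finset.mul_sum]
  congr 1
  · rw [Finset.sum_eq_single j (fun i _ hi => by simp [hi]) (by simp)]
    simp
  · exact Finset.sum_congr rfl fun i _ => by ring

theorem det_transvection (a c : Fin n → k) :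
    (1 + Matrix.vecMulVec a c).det = 1 + dotProduct c a := by
  rw [Matrix.vecMulVec_eq Unit, Matrix.det_one_add_replicateCol_mul_replicateRow]

theorem act_form (a c : Fin n → k) :
    act (1 + Matrix.vecMulVec a c) (form a) = C (1 + Matrix.vecMulVec a c).det * form a := by
  have hC : ∀ r : k, act (1 + Matrix.vecMulVec a c) (C r) = C r := fun r =>
    (act (1 + Matrix.vecMulVec a c)).commutes r
  conv_lhs => rw [form, map_sum]
  simp only [map_mul, act_transvection, hC, mul_add, Finset.sum_add_distrib, ← mul_assoc,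
    ← Finset.sum_mul]
  rw [det_transvection, map_add, C_1, add_mul, one_mul, dotProduct, map_sum]
  exact congrArg₂ (· + ·) rfl (congrArg (· * _) (Finset.sum_congr rfl fun i _ => by
    rw [map_mul, mul_comm]))

/-- A square zero perturbation of `1` of finite order is trivial. -/
theorem eq_zero_of_sq_zero [CharZero k] {u : Matrix (Fin n) (Fin n) k} {N : ℕ} (hN : N ≠ 0)
    (h2 : u * u = 0) (h : (1 + u) ^ N = 1) : u = 0 := by
  have key : ∀ m : ℕ, (1 + u) ^ m = 1 + (m : k) • u := fun m => by
    induction m with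
    | zero => simp
    | succ m ih =>
      rw [pow_succ, ih, add_mul, one_mul, smul_mul_assoc, mul_add, mul_one, h2, add_zero,
        Nat.cast_succ, add_smul, one_smul]
      abel
  rw [key, add_eq_left, smul_eq_zero] at h
  exact h.resolve_left (Nat.cast_ne_zero.2 hN)

variable (G : Subgroup (GL (Fin n) k)) [Finite G] [CharZero k]

/-- On a line the determinant is injective. -/
theorem det_injective_on_line {a c e : Fin n → k} {g h : GL (Fin n) k} (hg : g ∈ G) (hh : h ∈ G)
    (hgc : (g : Matrix (Fin n) (Fin n) k) = 1 + Matrix.vecMulVec a c)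
    (hhe : (h : Matrix (Fin n) (Fin n) k) = 1 + Matrix.vecMulVec a e)
    (hdet : (g : Matrix (Fin n) (Fin n) k).det = (h : Matrix (Fin n) (Fin n) k).det) : g = h := by
  rw [hgc, hhe, det_transvection, det_transvection, add_right_inj] at hdet
  set δ := (g : Matrix (Fin n) (Fin n) k).det with hδ
  have hga : Matrix.mulVec (g : Matrix (Fin n) (Fin n) k) a = δ • a := by
    rw [hδ, hgc, det_transvection, Matrix.add_mulVec, Matrix.one_mulVec, Matrix.vecMulVec_mulVec,
      op_smul_eq_smul, add_smul, one_smul]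
  have hδ0 : δ ≠ 0 := ((Matrix.isUnit_iff_isUnit_det _).1 g.isUnit).ne_zero
  have hga' : Matrix.mulVec ((g⁻¹ : GL (Fin n) k) : Matrix (Fin n) (Fin n) k) a = δ⁻¹ • a := by
    have := congrArg (Matrix.mulVec ((g⁻¹ : GL (Fin n) k) : Matrix (Fin n) (Fin n) k)) hga
    rw [Matrix.mulVec_mulVec, Units.inv_mul, Matrix.one_mulVec, Matrix.mulVec_smul] at this
    conv_rhs => rw [this]
    rw [smul_smul, inv_mul_cancel₀ hδ0, one_smul]
  set u : Matrix (Fin n) (Fin n) k :=
    ((g⁻¹ * h : GL (Fin n) k) : Matrix (Fin n) (Fin n) k) - 1 with hu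
  have hu' : u = Matrix.vecMulVec (δ⁻¹ • a) (e - c) := by
    rw [hu, Units.val_mul, show (h : Matrix (Fin n) (Fin n) k) =
      (g : Matrix (Fin n) (Fin n) k) + Matrix.vecMulVec a (e - c) by
        rw [hgc, hhe, Matrix.vecMulVec_sub]; abel, mul_add, Units.inv_mul, add_sub_cancel_left,
      Matrix.mul_vecMulVec, hga']
  have h2 : u * u = 0 := by
    rw [hu', Matrix.vecMulVec_mul_vecMulVec, sub_dotProduct, dotProduct_smul, dotProduct_smul,
      hdet, sub_self, zero_smul, Matrix.vecMulVec_zero]
  have h3 : (1 + u) ^ Nat.card G = 1 := by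
    rw [hu, add_sub_cancel, ← Units.val_pow_eq_pow_val,
      show (g⁻¹ * h) ^ Nat.card G = 1 from congrArg (fun x : G => (x : GL (Fin n) k))
        (pow_card_eq_one' (x := (⟨g⁻¹ * h, mul_mem (inv_mem hg) hh⟩ : G))), Units.val_one]
  have h4 : g⁻¹ * h = 1 :=
    Units.ext (sub_eq_zero.1 (eq_zero_of_sq_zero Nat.card_pos.ne' h2 h3))
  exact inv_mul_eq_one.1 h4

/-- An anti-invariant is divisible by each mirror form as often as there are reflections. -/
theorem form_pow_dvd {a : Fin n → k} (ha : a ≠ 0) (T : Finset (GL (Fin n) k)) (hTG : ∀ g ∈ T, g ∈ G)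
    (hT1 : ∀ g ∈ T, g ≠ 1)
    (hT : ∀ g ∈ T, ∃ c, (g : Matrix (Fin n) (Fin n) k) = 1 + Matrix.vecMulVec a c)
    {p : MvPolynomial (Fin n) k} (hp : ∀ g ∈ G, act (g : Matrix (Fin n) (Fin n) k) p =
      C ((g⁻¹ : GL (Fin n) k) : Matrix (Fin n) (Fin n) k).det * p) :
    form a ^ T.card ∣ p := by
  classical
  by_cases hp0 : p = 0
  · exact hp0 ▸ dvd_zero _
  obtain ⟨m, q, hq, hpq⟩ := WfDvdMonoid.max_power_factor hp0 (irreducible_form ha)
  rw [hpq]
  refine (pow_dvd_pow _ ?_).trans (dvd_mul_right _ _)
  set U := insert 1 T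
  have hU : ∀ g ∈ U, g ∈ G ∧ ∃ c, (g : Matrix (Fin n) (Fin n) k) = 1 + Matrix.vecMulVec a c := by
    intro g hg
    rcases Finset.mem_insert.1 hg with rfl | hg
    · exact ⟨one_mem G, 0, by simp⟩
    · exact ⟨hTG g hg, hT g hg⟩
  have hroot : ∀ g ∈ U, ((g : Matrix (Fin n) (Fin n) k).det) ^ (m + 1) = 1 := by
    intro g hg
    obtain ⟨hgG, c, hc⟩ := hU g hg
    set δ := (g : Matrix (Fin n) (Fin n) k).det
    have hinv : ((g⁻¹ : GL (Fin n) k) : Matrix (Fin n) (Fin n) k).det * δ = 1 := by
      rw [← Matrix.det_mul, Units.inv_mul, Matrix.det_one]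
    have hX : ∀ j, form a ∣ X j - act (g : Matrix (Fin n) (Fin n) k) (X j) := fun j => by
      rw [hc, act_transvection, sub_add_cancel_left]
      exact (Dvd.intro_left _ rfl).neg_right
    obtain ⟨r, hr⟩ := dvd_sub_act hX q
    have h1 := hp g hgG
    have hform : act (g : Matrix (Fin n) (Fin n) k) (form a) = C δ * form a := by
      rw [show δ = (1 + Matrix.vecMulVec a c).det by rw [← hc], hc]
      exact act_form a c
    rw [hpq, map_mul, map_pow, hform, show act (g : Matrix (Fin n) (Fin n) k) q = q - form a * r by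
      rw [← hr, sub_sub_cancel], mul_pow] at h1
    have h2 : C δ ^ m * (q - form a * r) =
        C ((g⁻¹ : GL (Fin n) k) : Matrix (Fin n) (Fin n) k).det * q :=
      mul_left_cancel₀ (pow_ne_zero m (form_ne_zero ha)) (by linear_combination h1)
    have h3 : C (δ ^ (m + 1)) * (q - form a * r) = q := by
      rw [map_pow, pow_succ', mul_assoc, h2, ← mul_assoc, ← C_mul, mul_comm δ, hinv, C_1, one_mul]
    by_contra hne
    refine hq ⟨C (δ ^ (m + 1) - 1)⁻¹ * (C (δ ^ (m + 1)) * r), ?_⟩
    have h4 : C (δ ^ (m + 1) - 1) * q = form a * (C (δ ^ (m + 1)) * r) := by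
      rw [map_sub, C_1]
      linear_combination h3
    rw [mul_left_comm, ← h4, ← mul_assoc, ← C_mul, inv_mul_cancel₀ (sub_ne_zero.2 hne), C_1,
      one_mul]
  have hsub : U.image (fun g : GL (Fin n) k => (g : Matrix (Fin n) (Fin n) k).det) ⊆
      (Polynomial.nthRoots (m + 1) (1 : k)).toFinset := by
    intro x hx
    obtain ⟨g, hg, rfl⟩ := Finset.mem_image.1 hx
    rw [Multiset.mem_toFinset, Polynomial.mem_nthRoots m.succ_pos]
    exact hroot g hg
  have h1 := Finset.card_le_card hsub
  rw [Finset.card_image_of_injOn fun g hg h hh hgh => by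
    obtain ⟨hgG, c, hc⟩ := hU g hg
    obtain ⟨hhG, e, he⟩ := hU h hh
    exact det_injective_on_line G hgG hhG hc he hgh,
    Finset.card_insert_of_notMem fun h => hT1 1 h rfl] at h1
  have h2 := (Multiset.toFinset_card_le _).trans (Polynomial.card_nthRoots (m + 1) (1 : k))
  omega

omit [Finite G] [CharZero k] in
theorem exists_mirror (g : FA.Molien.reflections G) : ∃ a c : Fin n → k, a ≠ 0 ∧
    ((g.1 : GL (Fin n) k) : Matrix (Fin n) (Fin n) k) = 1 + Matrix.vecMulVec a c := by
  set M := ((g.1 : GL (Fin n) k) : Matrix (Fin n) (Fin n) k) - 1 with hM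
  obtain ⟨⟨a, _⟩, ha⟩ := finrank_le_one_iff.1 g.2.2
  choose c hc using fun j => ha ⟨_, LinearMap.mem_range_self M.mulVecLin (Pi.single j 1)⟩
  have e : M = Matrix.vecMulVec a c := by
    ext i j
    have := congrFun (congrArg Subtype.val (hc j)) i
    simp at this
    rw [Matrix.vecMulVec_apply, ← this, mul_comm]
  refine ⟨a, c, fun h0 => g.2.1 ?_, by rw [← e, hM, add_sub_cancel]⟩
  ext1
  refine Units.ext (sub_eq_zero.1 (show M = 0 from ?_))
  rw [e, h0, Matrix.zero_vecMulVec]

/-- The chosen vector of a reflection. -/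
def mirror (g : FA.Molien.reflections G) : Fin n → k :=
  (exists_mirror G g).choose

omit [Finite G] [CharZero k] in
theorem mirror_spec (g : FA.Molien.reflections G) : ∃ c : Fin n → k, mirror G g ≠ 0 ∧
    ((g.1 : GL (Fin n) k) : Matrix (Fin n) (Fin n) k) = 1 + Matrix.vecMulVec (mirror G g) c :=
  (exists_mirror G g).choose_spec

/-- **The product of the mirror forms divides every anti-invariant.** -/
theorem prod_mirror_dvd [Fintype (FA.Molien.reflections G)] {p : MvPolynomial (Fin n) k}
    (hp : ∀ g ∈ G, act (g : Matrix (Fin n) (Fin n) k) p =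
      C ((g⁻¹ : GL (Fin n) k) : Matrix (Fin n) (Fin n) k).det * p) :
    ∏ g, form (mirror G g) ∣ p := by
  classical
  set line : FA.Molien.reflections G → Submodule k (Fin n → k) :=
    fun g => Submodule.span k {mirror G g}
  rw [← Finset.prod_fiberwise_of_maps_to (t := Finset.univ.image line) (g := line)
    fun g hg => Finset.mem_image_of_mem line hg]
  refine Finset.prod_dvd_of_isRelPrime (fun x hx y hy hxy => ?_) fun x hx => ?_
  · obtain ⟨g, -, rfl⟩ := Finset.mem_image.1 hx
    obtain ⟨h, -, rfl⟩ := Finset.mem_image.1 hy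
    refine IsRelPrime.prod_left fun r hr => IsRelPrime.prod_right fun s hs => ?_
    obtain ⟨c, hr0, -⟩ := mirror_spec G r
    obtain ⟨e, hs0, -⟩ := mirror_spec G s
    refine (irreducible_form hr0).isRelPrime_iff_not_dvd.2 fun hd => hxy ?_
    obtain ⟨t, ht⟩ := exists_smul_of_dvd hr0 hs0 hd
    have ht0 : t ≠ 0 := fun h0 => hs0 (by rw [ht, h0, zero_smul])
    rw [← (Finset.mem_filter.1 hr).2, ← (Finset.mem_filter.1 hs).2]
    show Submodule.span k {mirror G r} = Submodule.span k {mirror G s}
    rw [ht, Submodule.span_singleton_smul_eq (isUnit_iff_ne_zero.2 ht0)]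
  · obtain ⟨g₀, -, rfl⟩ := Finset.mem_image.1 hx
    obtain ⟨-, ha, -⟩ := mirror_spec G g₀
    set F := Finset.univ.filter fun g => line g = line g₀
    have hsmul : ∀ g ∈ F, ∃ t : k, t • mirror G g₀ = mirror G g := fun g hg => by
      have h1 : mirror G g ∈ line g := Submodule.mem_span_singleton_self _
      rw [(Finset.mem_filter.1 hg).2] at h1
      exact Submodule.mem_span_singleton.1 h1
    have hinj : Function.Injective fun g : FA.Molien.reflections G => (g.1 : GL (Fin n) k) :=
      fun x y h => Subtype.ext (Subtype.ext h)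
    have hdvd := form_pow_dvd G ha (F.map ⟨_, hinj⟩) ?_ ?_ ?_ hp
    · rw [Finset.card_map] at hdvd
      refine dvd_trans ?_ hdvd
      rw [← Finset.prod_const]
      refine Finset.prod_dvd_prod_of_dvd _ _ fun g hg => ?_
      obtain ⟨t, ht⟩ := hsmul g hg
      have ht0 : t ≠ 0 := fun h0 => (mirror_spec G g).choose_spec.1 (by rw [← ht, h0, zero_smul])
      refine ⟨C t⁻¹, ?_⟩
      simp only [form, ← ht, Pi.smul_apply, smul_eq_mul, map_mul, Finset.sum_mul]
      refine Finset.sum_congr rfl fun i _ => ?_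
      have h1 : C t * C t⁻¹ = (1 : MvPolynomial (Fin n) k) := by
        rw [← C_mul, mul_inv_cancel₀ ht0, C_1]
      linear_combination -(C (mirror G g₀ i) * X i) * h1
    all_goals
      intro g hg
      obtain ⟨r, hr, rfl⟩ := Finset.mem_map.1 hg
    · exact r.1.2
    · exact fun h => r.2.1 (Subtype.ext h)
    · obtain ⟨t, ht⟩ := hsmul r hr
      obtain ⟨c, -, hc⟩ := mirror_spec G r
      refine ⟨t • c, hc.trans ?_⟩
      rw [← ht, Matrix.smul_vecMulVec, Matrix.vecMulVec_smul]

variable {f : Fin n → MvPolynomial (Fin n) k} {d : Fin n → ℕ}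

/-- **The Jacobian is the product of the mirror forms.** -/
theorem jac_eq_prod_mirror [Fintype (FA.Molien.reflections G)]
    (hd : ∀ i, 0 < d i ∧ (f i).IsHomogeneous (d i))
    (hgen : invariants G = Algebra.adjoin k (Set.range f)) :
    ∃ c : k, c ≠ 0 ∧ jac f = C c * ∏ g, form (mirror G g) := by
  have hinv : ∀ i, f i ∈ invariants G := fun i => hgen ▸ Algebra.subset_adjoin ⟨i, rfl⟩
  obtain ⟨q, hq⟩ := prod_mirror_dvd G (p := jac f) fun g hg => act_jac G hinv hg
  have hne := jac_ne_zero G hgen
  rw [hq] at hne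
  obtain ⟨hP, hq0⟩ := mul_ne_zero_iff.1 hne
  have hdegP : (∏ g, form (mirror G g)).totalDegree = Nat.card (FA.Molien.reflections G) := by
    rw [(IsHomogeneous.prod _ _ _ fun g _ => isHomogeneous_form _).totalDegree hP]
    simp
  have hdegJ : (jac f).totalDegree = Nat.card (FA.Molien.reflections G) := by
    rw [(isHomogeneous_jac fun i => (hd i).2).totalDegree (hq ▸ mul_ne_zero hP hq0)]
    exact (FA.Molien.degree_formulas G hd
      (FA.SteinbergFixed.algebraicIndependent_of_generates G hgen) hgen).2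
  rw [hq, totalDegree_mul_of_isDomain hP hq0, hdegP, add_eq_left,
    totalDegree_eq_zero_iff_eq_C] at hdegJ
  refine ⟨coeff 0 q, fun h => hq0 (by rw [hdegJ, h, C_0]), ?_⟩
  rw [hq, mul_comm]
  exact congrArg (· * _) hdegJ

/-- **Anti-invariants are the multiples of the Jacobian by invariants.** -/
theorem anti_invariant_iff (hd : ∀ i, 0 < d i ∧ (f i).IsHomogeneous (d i))
    (hgen : invariants G = Algebra.adjoin k (Set.range f)) (p : MvPolynomial (Fin n) k) :
    (∀ g ∈ G, act (g : Matrix (Fin n) (Fin n) k) p =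
      C ((g⁻¹ : GL (Fin n) k) : Matrix (Fin n) (Fin n) k).det * p) ↔
      ∃ h ∈ invariants G, p = jac f * h := by
  have hinv : ∀ i, f i ∈ invariants G := fun i => hgen ▸ Algebra.subset_adjoin ⟨i, rfl⟩
  refine ⟨fun hp => ?_, fun ⟨h, hh, e⟩ g hg => ?_⟩
  · let _ := Fintype.ofFinite (FA.Molien.reflections G)
    obtain ⟨c, hc, hJ⟩ := jac_eq_prod_mirror G hd hgen
    obtain ⟨q, hq⟩ := prod_mirror_dvd G hp
    have he : p = jac f * (C c⁻¹ * q) := by
      rw [hJ, hq, mul_mul_mul_comm, ← C_mul, mul_inv_cancel₀ hc, C_1, one_mul]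
    refine ⟨_, fun g hg => ?_, he⟩
    have h1 := hp g hg
    rw [he, map_mul, act_jac G hinv hg, mul_assoc] at h1
    exact mul_left_cancel₀ (jac_ne_zero G hgen) (mul_left_cancel₀ (C_eq_zero.not.2
      ((Matrix.isUnit_iff_isUnit_det _).1 (g⁻¹).isUnit).ne_zero) h1)
  · rw [e, map_mul, act_jac G hinv hg, hh g hg, mul_assoc]

end FA.Solomon
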